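import Fermat.Agent.Lib.RR.H920.RiemannBound

/-!
# RR library, layer L3.2 (helper920): `ℓ(D) = deg D + 1 - g` for divisors of large degree

Hypothesis-explicit form of the skeleton statement `exists_degree_bound`: from Riemann's
inequality with constant `g` and one divisor `D₀` attaining the bound.
-/

set_option autoImplicit false

noncomputable section

open AlgebraicCurve

namespace Fermat.Agent.Lib.RR.H920

open Fermat.Agent.Lib.RR

variable {K F : Type*} [Field K] [Field F] [Algebra K F] [hFF : FF1 K F]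

/-- Above (up to linear equivalence) a divisor attaining the Riemann bound, the bound is
attained: explicit constant `c = deg D₀ + g`. -/
theorem degree_bound_of_riemann (g : ℤ)
    (hineq : ∀ D : Divisor K F, Divisor.degree D + 1 - g ≤ ell D)
    {D₀ : Divisor K F} (h₀ : (ell D₀ : ℤ) = Divisor.degree D₀ + 1 - g)
    (D : Divisor K F) (hD : Divisor.degree D₀ + g ≤ Divisor.degree D) :
    (ell D : ℤ) = Divisor.degree D + 1 - g := by
  have h1 := hineq (D - D₀)
  rw [map_sub] at h1
  have hpos : 0 < ell (D - D₀) := by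
    have : (0 : ℤ) < ell (D - D₀) := by linarith
    exact_mod_cast this
  obtain ⟨z, hz, hzmem⟩ := exists_ne_zero_of_ell_pos hpos
  have hle := le_add_divOf_of_mem hz hzmem
  have e2 := degree_sub_ell_mono hle
  rw [map_add, degree_divOf, add_zero, ell_add_divOf] at e2
  have e3 := hineq D
  linarith

/-- Skeleton shape of L3.2 for an arbitrary Riemann constant `g`. -/
theorem exists_degree_bound_of (g : ℤ)
    (hineq : ∀ D : Divisor K F, Divisor.degree D + 1 - g ≤ ell D)
    (hex : ∃ D₀ : Divisor K F, (ell D₀ : ℤ) = Divisor.degree D₀ + 1 - g) :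
    ∃ c : ℤ, ∀ D : Divisor K F, c ≤ Divisor.degree D →
      (ell D : ℤ) = Divisor.degree D + 1 - g := by
  obtain ⟨D₀, h₀⟩ := hex
  exact ⟨Divisor.degree D₀ + g, fun D hD => degree_bound_of_riemann g hineq h₀ D hD⟩

/-- From a Riemann bound to a least constant: there is `g : ℕ` with Riemann's inequality,
attained by some divisor, and `ℓ(D) = deg D + 1 - g` for all `D` of large degree. -/
theorem exists_genus_of_bound
    (hbound : ∃ γ : ℤ, ∀ D : Divisor K F, Divisor.degree D - ell D ≤ γ) :
    ∃ g : ℕ, (∀ D : Divisor K F, Divisor.degree D + 1 - (g : ℤ) ≤ ell D) ∧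
      (∃ D₀ : Divisor K F, (ell D₀ : ℤ) = Divisor.degree D₀ + 1 - (g : ℤ)) ∧
      ∃ c : ℤ, ∀ D : Divisor K F, c ≤ Divisor.degree D →
        (ell D : ℤ) = Divisor.degree D + 1 - (g : ℤ) := by
  classical
  have hex : ∃ g : ℕ, ∀ D : Divisor K F, Divisor.degree D + 1 - (g : ℤ) ≤ ell D := by
    obtain ⟨γ, hγ⟩ := hbound
    refine ⟨(γ + 1).toNat, fun D => ?_⟩
    have h1 := hγ D
    have h2 : γ + 1 ≤ ((γ + 1).toNat : ℤ) := Int.self_le_toNat _
    omega
  have hspec := Nat.find_spec hex
  have hatt : ∃ D₀ : Divisor K F,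
      (ell D₀ : ℤ) = Divisor.degree D₀ + 1 - ((Nat.find hex : ℕ) : ℤ) := by
    by_cases hg : Nat.find hex = 0
    · refine ⟨0, ?_⟩
      rw [ell_zero, hg]; simp
    · have hlt : Nat.find hex - 1 < Nat.find hex := by omega
      have hmin := Nat.find_min hex hlt
      simp only [not_forall, not_le] at hmin
      obtain ⟨D, hD⟩ := hmin
      refine ⟨D, le_antisymm ?_ (hspec D)⟩
      have hcast : ((Nat.find hex - 1 : ℕ) : ℤ) = ((Nat.find hex : ℕ) : ℤ) - 1 := by
        rw [Nat.cast_sub (by omega)]; simp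
      rw [hcast] at hD
      omega
  exact ⟨Nat.find hex, hspec, hatt, exists_degree_bound_of _ hspec hatt⟩

end Fermat.Agent.Lib.RR.H920
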