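import Fermat.Agent.Lib.RR.Basic

/-!
# RR library, layer L3.1 (helper920): Riemann's theorem from the pole bound (L2)

`riemann_bound_of_poles`: for a transcendental `x` with `F / K(x)` finite whose poles, counted with
multiplicity, number at most `[F : K(x)]`, the function `D ↦ deg D - ℓ(D)` is bounded above.
`exists_riemann_bound_of_L2`: the frozen statement `exists_riemann_bound` of the skeleton, with the
statement of L2 (`sum_neg_ord_le_finrank`) as a hypothesis.
-/

set_option autoImplicit false

noncomputable section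

open AlgebraicCurve

namespace Fermat.Agent.Lib.RR.H920

open Fermat.Agent.Lib.RR

variable {K F : Type*} [Field K] [Field F] [Algebra K F]

/-- Powers of a transcendental element are linearly independent. -/
theorem linearIndependent_pow_of_transcendental {A : Type*} [CommRing A] [Algebra K A] {x : A}
    (hx : Transcendental K x) : LinearIndependent K (fun i : ℕ => x ^ i) := by
  have hinj : Function.Injective (Polynomial.aeval (R := K) x) := transcendental_iff_injective.mp hx
  have h := (Polynomial.basisMonomials K).linearIndependent.map' (Polynomial.aeval (R := K) x).toLinearMap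
    (LinearMap.ker_eq_bot.mpr hinj)
  have heq : ((Polynomial.aeval (R := K) x).toLinearMap ∘ (Polynomial.basisMonomials K))
      = fun i : ℕ => x ^ i := by
    funext i
    simp [Polynomial.coe_basisMonomials]
  rwa [heq] at h

/-- The pole part of a divisor: `D⁻ = (-D) ⊔ 0`. -/
def negPart (D : Divisor K F) : Divisor K F := (-D) ⊔ 0

theorem negPart_apply (D : Divisor K F) (v : Place K F) : negPart D v = max (-D v) 0 := by
  simp [negPart]

theorem negPart_nonneg (D : Divisor K F) : 0 ≤ negPart D := le_sup_right

theorem neg_le_negPart (D : Divisor K F) : -D ≤ negPart D := le_sup_left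

section FF1

variable [hFF : FF1 K F]

/-- Existence of a nonzero element of `L(D)` when `ℓ(D) > 0`. -/
theorem exists_ne_zero_of_ell_pos {D : Divisor K F} (h : 0 < ell D) :
    ∃ z : F, z ≠ 0 ∧ z ∈ riemannRochSpace D := by
  unfold ell at h
  obtain ⟨z, hz⟩ := Module.finrank_pos_iff_exists_ne_zero.mp h
  exact ⟨z.1, fun h0 => hz (Subtype.ext h0), z.2⟩

/-- If `z ≠ 0` lies in `L(D - A)` then `A ≤ D + div z`. -/
theorem le_add_divOf_of_mem {D A : Divisor K F} {z : F} (hz : z ≠ 0)
    (hmem : z ∈ riemannRochSpace (D - A)) : A ≤ D + divOf z hz := by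
  rw [Finsupp.le_def]
  intro v
  have h := (mem_L_iff.mp hmem v).resolve_left hz
  rw [Finsupp.add_apply, divOf_apply]
  rw [Finsupp.sub_apply] at h
  omega

/-- **Riemann's theorem** from the pole bound for one transcendental element. -/
theorem riemann_bound_of_poles (x : F) (hx : Transcendental K x)
    [FiniteDimensional (IntermediateField.adjoin K {x}) F]
    (hpoles : ∀ S : Finset (Place K F), (∀ v ∈ S, v.ord x < 0) →
      ∑ v ∈ S, -v.ord x ≤ (Module.finrank (IntermediateField.adjoin K {x}) F : ℤ)) :
    ∃ γ : ℤ, ∀ D : Divisor K F, Divisor.degree D - ell D ≤ γ := by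
  classical
  have hn : 0 < Module.finrank (IntermediateField.adjoin K {x}) F := Module.finrank_pos
  have hx0 : x ≠ 0 := fun h => hx (h ▸ isAlgebraic_zero)
  -- the pole divisor of `x`
  obtain ⟨B, hB⟩ : ∃ B : Divisor K F, B = negPart (divOf x hx0) := ⟨_, rfl⟩
  have hBnn : 0 ≤ B := hB ▸ negPart_nonneg _
  have hBv : ∀ v, B v = max (-v.ord x) 0 := fun v => by rw [hB, negPart_apply, divOf_apply]
  have hdegB : Divisor.degree B ≤ (Module.finrank (IntermediateField.adjoin K {x}) F : ℤ) := by
    rw [degree_eq_sum]
    have hpole : ∀ v ∈ B.support, v.ord x < 0 := by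
      intro v hv
      have h1 := Finsupp.mem_support_iff.mp hv
      rw [hBv] at h1
      by_contra hcon
      exact h1 (max_eq_right (by omega))
    have hsum : ∑ v ∈ B.support, B v * (v.deg : ℤ) = ∑ v ∈ B.support, -v.ord x := by
      refine Finset.sum_congr rfl fun v hv => ?_
      rw [deg_eq_one v, hBv, max_eq_left (by have := hpole v hv; omega)]
      simp
    rw [hsum]
    exact hpoles _ hpole
  -- a basis of `F` over `K(x)`
  let u := Module.finBasis (IntermediateField.adjoin K {x}) F
  have hu0 : ∀ j, u j ≠ 0 := fun j => u.ne_zero j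
  obtain ⟨C, hC⟩ : ∃ C : Divisor K F, C = ∑ j, negPart (divOf (u j) (hu0 j)) := ⟨_, rfl⟩
  have hCnn : 0 ≤ C := hC ▸ Finset.sum_nonneg (fun j _ => negPart_nonneg _)
  have hCv : ∀ j v, -(C v) ≤ v.ord (u j) := by
    intro j v
    have h1 : negPart (divOf (u j) (hu0 j)) ≤ C := by
      rw [hC]
      exact Finset.single_le_sum (f := fun j => negPart (divOf (K := K) (u j) (hu0 j)))
        (fun j _ => negPart_nonneg _) (Finset.mem_univ j)
    have h2 := Finsupp.le_def.mp h1 v
    rw [negPart_apply, divOf_apply] at h2
    have := le_max_left (-v.ord (u j)) 0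
    omega
  -- the lower bound for `ℓ(l B + C)`
  have key : ∀ l : ℕ, (((l + 1) * Module.finrank (IntermediateField.adjoin K {x}) F : ℕ) : ℤ)
      ≤ ell (l • B + C) := by
    intro l
    have hb : LinearIndependent K
        (fun i : Fin (l + 1) => (IntermediateField.AdjoinSimple.gen K x) ^ (i : ℕ)) := by
      have h1 := (linearIndependent_pow_of_transcendental hx).comp
        (fun i : Fin (l + 1) => (i : ℕ)) Fin.val_injective
      refine LinearIndependent.of_comp (IntermediateField.adjoin K {x}).val.toLinearMap ?_
      convert h1 using 1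
      funext i
      simp
    have hli := linearIndependent_smul hb u.linearIndependent
    have hmem : ∀ p : Fin (l + 1) × Fin (Module.finrank (IntermediateField.adjoin K {x}) F),
        (IntermediateField.AdjoinSimple.gen K x) ^ (p.1 : ℕ) • u p.2
          ∈ riemannRochSpace (l • B + C) := by
      rintro ⟨i, j⟩
      rw [mem_L_iff]
      intro v
      right
      have h1 : ((IntermediateField.AdjoinSimple.gen K x) ^ (i : ℕ) • u j : F)
          = x ^ (i : ℕ) * u j := by
        rw [Algebra.smul_def]
        simp
      rw [h1, v.ord_mul (pow_ne_zero _ hx0) (hu0 j), ord_pow]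
      have h2 := hCv j v
      have h3 : -(B v) ≤ v.ord x := by
        rw [hBv]; have := le_max_left (-v.ord x) 0; omega
      have h4 : 0 ≤ B v := by simpa using Finsupp.le_def.mp hBnn v
      have h5 : (l • B + C) v = l * B v + C v := by simp
      rw [h5]
      have hi : ((i : ℕ) : ℤ) ≤ l := by have := i.2; omega
      have h6 : -(l * B v) ≤ ((i : ℕ) : ℤ) * v.ord x := by
        have h7 : ((i : ℕ) : ℤ) * (-(B v)) ≤ ((i : ℕ) : ℤ) * v.ord x :=
          mul_le_mul_of_nonneg_left h3 (by positivity)
        have h8 : ((i : ℕ) : ℤ) * B v ≤ l * B v := mul_le_mul_of_nonneg_right hi h4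
        linarith
      linarith
    have hli' : LinearIndependent K
        (fun p : Fin (l + 1) × Fin (Module.finrank (IntermediateField.adjoin K {x}) F) =>
          (⟨_, hmem p⟩ : riemannRochSpace (l • B + C))) :=
      LinearIndependent.of_comp (riemannRochSpace (l • B + C)).subtype hli
    have hcard := hli'.fintype_card_le_finrank
    rw [Fintype.card_prod, Fintype.card_fin, Fintype.card_fin] at hcard
    unfold ell
    exact_mod_cast hcard
  -- hence a lower bound for `ℓ(l B)`
  have key1 : ∀ l : ℕ, ((l + 1) * Module.finrank (IntermediateField.adjoin K {x}) F : ℤ)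
      - Divisor.degree C ≤ ell (l • B) := by
    intro l
    have h1 := degree_sub_ell_mono (D := l • B) (D' := l • B + C)
      (le_add_of_nonneg_right hCnn)
    have h2 := key l
    rw [map_add] at h1
    push_cast at h2
    linarith
  have key2 : ∀ l : ℕ, Divisor.degree (l • B) - ell (l • B)
      ≤ Divisor.degree C - Module.finrank (IntermediateField.adjoin K {x}) F := by
    intro l
    have h1 := key1 l
    have h2 : Divisor.degree (l • B) = l * Divisor.degree B := by
      rw [map_nsmul]; simp
    rw [h2]
    have h3 : (l : ℤ) * Divisor.degree B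
        ≤ l * (Module.finrank (IntermediateField.adjoin K {x}) F : ℤ) :=
      mul_le_mul_of_nonneg_left hdegB (by positivity)
    linarith
  refine ⟨Divisor.degree C - Module.finrank (IntermediateField.adjoin K {x}) F, fun A => ?_⟩
  -- reduce to `A ≥ 0`
  obtain ⟨A₁, hA₁⟩ : ∃ A₁ : Divisor K F, A₁ = A ⊔ 0 := ⟨_, rfl⟩
  have hAA₁ : A ≤ A₁ := hA₁ ▸ le_sup_left
  have hA₁nn : 0 ≤ A₁ := hA₁ ▸ le_sup_right
  have ha : 0 ≤ Divisor.degree A₁ := degree_nonneg hA₁nn
  have hc : 0 ≤ Divisor.degree C := degree_nonneg hCnn
  obtain ⟨l, hl⟩ : ∃ l : ℕ, (l : ℤ) = Divisor.degree C + Divisor.degree A₁ :=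
    ⟨(Divisor.degree C + Divisor.degree A₁).toNat, Int.toNat_of_nonneg (by omega)⟩
  have hpos : 0 < ell (l • B - A₁) := by
    have h1 := degree_sub_ell_mono (D := l • B - A₁) (D' := l • B)
      (sub_le_self _ hA₁nn)
    have h2 := key1 l
    rw [map_sub] at h1
    have h3 : ((l : ℤ) + 1) ≤ ((l : ℤ) + 1) * Module.finrank (IntermediateField.adjoin K {x}) F := by
      have : (1 : ℤ) ≤ Module.finrank (IntermediateField.adjoin K {x}) F := by exact_mod_cast hn
      nlinarith
    have h4 : (0 : ℤ) < ell (l • B - A₁) := by linarith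
    exact_mod_cast h4
  obtain ⟨z, hz, hzmem⟩ := exists_ne_zero_of_ell_pos hpos
  have hle := le_add_divOf_of_mem hz hzmem
  have e1 := degree_sub_ell_mono hAA₁
  have e2 := degree_sub_ell_mono hle
  rw [map_add, degree_divOf, add_zero, ell_add_divOf] at e2
  have e3 := key2 l
  linarith

/-- The frozen statement `exists_riemann_bound` of the skeleton, with the statement of layer L2
(`sum_neg_ord_le_finrank`) as a hypothesis. -/
theorem exists_riemann_bound_of_L2
    (hL2 : ∀ (x : F) [FiniteDimensional (IntermediateField.adjoin K {x}) F]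
      (S : Finset (Place K F)), (∀ v ∈ S, v.ord x < 0) →
      ∑ v ∈ S, -v.ord x ≤ (Module.finrank (IntermediateField.adjoin K {x}) F : ℤ)) :
    ∃ γ : ℤ, ∀ D : Divisor K F, Divisor.degree D - ell D ≤ γ := by
  obtain ⟨x, hx, hfin⟩ := hFF.exists_finite
  have := hfin
  exact riemann_bound_of_poles x hx (fun S hS => hL2 x S hS)

end FF1

end Fermat.Agent.Lib.RR.H920
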